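import Mathlib.RingTheory.Trace.Basic
import Mathlib.Analysis.Complex.Polynomial.Basic
import Mathlib.Data.Set.Finite.Lattice
import Mathlib.Topology.Algebra.Order.Floor
import Fermat.Agent.PisotCriterion.Theorem

/-!
# Pisot's theorem on finitely many limit points

For algebraic `θ > 1` and `λ ≠ 0` with finitely many limit points of `λ θ ^ n` modulo one, the
sum of the integer part and the nearest limit point satisfies every integral recurrence with root
`θ`. A rational functional makes it an integer sequence, so `θ` is an algebraic integer; its monic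
recurrence makes the limit points periodic, so `(θ ^ p - 1) λ θ ^ n` tends to the integers.
-/

set_option autoImplicit false

noncomputable section

open Finset Polynomial Filter Topology
open scoped IntermediateField

namespace FA.PisotLimitPoints

open FA.PisotCriterion

variable {θ lam : ℝ}

/-- A sequence with finitely many cluster points in a compact set is close to them. -/
theorem eventually_near_clusterPt {f : ℕ → ℝ} (hf : ∀ n, f n ∈ Set.Icc (0 : ℝ) 1) {η : ℝ}
    (hη : 0 < η) : ∀ᶠ n in atTop, ∃ z, MapClusterPt z atTop f ∧ |f n - z| < η := by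
  by_contra hne
  rw [not_eventually] at hne
  set S := {n | ¬∃ z, MapClusterPt z atTop f ∧ |f n - z| < η}
  have : (atTop ⊓ 𝓟 S).NeBot := frequently_mem_iff_neBot.1 hne
  obtain ⟨z, -, hz⟩ := (isCompact_Icc (a := (0 : ℝ)) (b := 1)).exists_mapClusterPt
    (u := f) (f := atTop ⊓ 𝓟 S) (tendsto_principal.2 (Eventually.of_forall hf))
  have h1 : ∃ᶠ n in atTop ⊓ 𝓟 S, |f n - z| < η := by
    simpa [Metric.mem_ball, Real.dist_eq] using hz.frequently (Metric.ball_mem_nhds z hη)
  rw [frequently_inf_principal] at h1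
  obtain ⟨n, hn, hn'⟩ := h1.exists
  exact hn ⟨z, hz.mono inf_le_left, hn'⟩

/-- If `k + l` is `λ θ ^ n + o (1)` with `k` integral and `l` taking finitely many values, it
satisfies every integral recurrence with root `θ`. -/
theorem eventually_shiftOp_eq_zero {k : ℕ → ℤ} {l : ℕ → ℝ} {L : Set ℝ} (hL : L.Finite)
    (hl : ∀ n, l n ∈ L) (he : Tendsto (fun n => lam * θ ^ n - (k n + l n)) atTop (𝓝 0))
    {G : ℤ[X]} (hG : aeval θ G = 0) :
    ∀ᶠ n in atTop, shiftOp (G.map (Int.castRingHom ℝ)) (fun i => k i + l i) n = 0 := by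
  set f := G.map (Int.castRingHom ℝ) with hf
  have hfθ : f.eval θ = 0 := by rw [hf, eval_map, ← algebraMap_int_eq, ← aeval_def, hG]
  have hfd : f.natDegree < G.natDegree + 1 := Nat.lt_succ_of_le natDegree_map_le
  have hsum : ∀ n, shiftOp f (fun i => k i + l i) n = (shiftOp G k n : ℝ) + shiftOp f l n := by
    intro n
    have h1 : ((shiftOp G k n : ℤ) : ℝ) = shiftOp f (fun i => (k i : ℝ)) n :=
      map_shiftOp (Int.castRingHom ℝ) G k n
    rw [h1, show (fun i => (k i : ℝ) + l i) = (fun i => (k i : ℝ)) + l from rfl, map_add,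
      Pi.add_apply]
  have hdiff : Tendsto (fun n => (shiftOp G k n : ℝ) + shiftOp f l n) atTop (𝓝 0) := by
    have h1 := (tendsto_shiftOp f he).neg
    rw [neg_zero] at h1
    refine h1.congr fun n => ?_
    rw [← hsum, show (fun i => lam * θ ^ i - (k i + l i)) =
      (fun i => lam * θ ^ i) - fun i => k i + l i from rfl, map_sub, Pi.sub_apply, shiftOp_geom,
      hfθ, zero_mul, zero_sub, neg_neg]
  set V := (fun w : Fin (G.natDegree + 1) → ℝ => ∑ j : Fin (G.natDegree + 1), f.coeff j * w j) ''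
    Set.pi Set.univ fun _ => L with hV
  have hVfin : V.Finite := (Set.Finite.pi fun _ => hL).image _
  have hmem : ∀ n, shiftOp f l n ∈ V := fun n => by
    refine ⟨fun j => l (n + j), fun j _ => hl _, ?_⟩
    rw [shiftOp_apply_of_lt hfd, Finset.sum_range]
  have key : ∀ v : ℝ, ∀ᶠ n in atTop, shiftOp f l n = v → (shiftOp G k n : ℝ) + v = 0 := by
    intro v
    by_cases hv : ∃ i : ℤ, (i : ℝ) = v
    · obtain ⟨i, rfl⟩ := hv
      filter_upwards [Metric.tendsto_nhds.1 hdiff 1 one_pos] with n hn hnv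
      rw [Real.dist_eq, sub_zero, hnv] at hn
      exact_mod_cast Int.abs_lt_one_iff.1 (by exact_mod_cast hn : |shiftOp G k n + i| < 1)
    · have hpos : 0 < |v - round v| := abs_pos.2 (sub_ne_zero.2 fun h => hv ⟨_, h.symm⟩)
      filter_upwards [Metric.tendsto_nhds.1 hdiff _ hpos] with n hn hnv
      rw [Real.dist_eq, sub_zero, hnv, add_comm,
        show v + (shiftOp G k n : ℝ) = v - ((-shiftOp G k n : ℤ) : ℝ) by push_cast; ring] at hn
      exact absurd hn (not_lt.2 (round_le v _))
  filter_upwards [hVfin.eventually_all.2 fun v _ => key v] with n hn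
  rw [hsum]
  exact hn _ (hmem n) rfl

/-- **Pisot's theorem**: finitely many limit points force a Pisot number. -/
theorem isPisot_of_finite (hθ : 1 < θ) (halg : IsAlgebraic ℚ θ) (hlam : lam ≠ 0)
    (hfin : {z : ℝ | MapClusterPt z atTop fun n : ℕ => Int.fract (lam * θ ^ n)}.Finite) :
    IsPisot θ ∧ lam ∈ ℚ⟮θ⟯ := by
  classical
  set f : ℕ → ℝ := fun n => Int.fract (lam * θ ^ n) with hf
  set L := {z : ℝ | MapClusterPt z atTop f} with hL
  set k : ℕ → ℤ := fun n => ⌊lam * θ ^ n⌋ with hk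
  have hI : ∀ n, f n ∈ Set.Icc (0 : ℝ) 1 := fun n =>
    ⟨Int.fract_nonneg _, (Int.fract_lt_one _).le⟩
  have hLne : L.Nonempty := by
    obtain ⟨n, z, hz, -⟩ := (eventually_near_clusterPt hI one_pos).exists
    exact ⟨z, hz⟩
  choose l hlL hlmin using fun n => hfin.exists_minimalFor (fun z => |f n - z|) L hLne
  have he : Tendsto (fun n => lam * θ ^ n - (k n + l n)) atTop (𝓝 0) := by
    rw [Metric.tendsto_nhds]
    intro η hη
    filter_upwards [eventually_near_clusterPt hI hη] with n ⟨z, hz, hzn⟩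
    rw [Real.dist_eq, sub_zero, show lam * θ ^ n - (k n + l n) = f n - l n by
      simp only [hf, hk, Int.fract]; ring]
    refine lt_of_le_of_lt ?_ hzn
    rcases le_total (|f n - l n|) (|f n - z|) with h | h
    · exact h
    · exact hlmin n hz h
  -- a rational functional gives an integer sequence, so `θ` is integral
  have hint : IsIntegral ℤ θ := by
    obtain ⟨G, hG0, hG⟩ := (IsFractionRing.isAlgebraic_iff ℤ ℚ ℝ).2 halg
    obtain ⟨φ, hφ⟩ := LinearMap.exists_leftInverse_of_injective (Algebra.linearMap ℚ ℝ)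
      (LinearMap.ker_eq_bot.2 (algebraMap ℚ ℝ).injective)
    have hφ1 : φ 1 = 1 := by simpa using LinearMap.congr_fun hφ 1
    set D : ℕ := ∏ z ∈ hfin.toFinset, (φ z).den with hD
    have hD0 : D ≠ 0 := Finset.prod_ne_zero_iff.2 fun z _ => (φ z).den_nz
    have hDL : ∀ z ∈ L, ∃ i : ℤ, (i : ℚ) = D * φ z := fun z hz => by
      obtain ⟨c, hc⟩ : (φ z).den ∣ D :=
        Finset.dvd_prod_of_mem _ (hfin.mem_toFinset.2 hz)
      refine ⟨c * (φ z).num, ?_⟩
      rw [hc]
      push_cast
      linear_combination -(c : ℚ) * Rat.mul_den_eq_num (φ z)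
    choose i hi using hDL
    set a : ℕ → ℤ := fun n => D * k n + i (l n) (hlL n) with ha
    have ha' : ∀ n, (a n : ℚ) = (D : ℚ) * φ (k n + l n) := fun n => by
      rw [ha, map_add, mul_add, ← hi (l n) (hlL n),
        show (k n : ℝ) = k n • (1 : ℝ) by simp, map_zsmul, hφ1]
      push_cast
      simp [mul_comm]
    have hc : (G.map (Int.castRingHom ℚ)).leadingCoeff ≠ 0 :=
      leadingCoeff_ne_zero.2 ((Polynomial.map_ne_zero_iff Int.cast_injective).2 hG0)
    set c := (G.map (Int.castRingHom ℚ)).leadingCoeff with hcdef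
    refine isIntegral_of_isLittleO (a := a) (lam := D * lam) hθ
      (mul_ne_zero (Nat.cast_ne_zero.2 hD0) hlam) ?_ (R := C c⁻¹ * G.map (Int.castRingHom ℚ))
      (monic_C_mul_of_mul_leadingCoeff_eq_one (inv_mul_cancel₀ hc)) ?_
    · obtain ⟨B, hB⟩ : ∃ B, ∀ z ∈ L, |(D : ℝ) * (z - (φ z : ℝ))| ≤ B :=
        (hfin.image fun z => |(D : ℝ) * (z - (φ z : ℝ))|).bddAbove.imp fun B hB z hz =>
          hB (Set.mem_image_of_mem _ hz)
      have hsmall : Tendsto (fun n => ((D : ℝ) * |lam * θ ^ n - (k n + l n)| + B) / θ ^ n)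
          atTop (𝓝 0) :=
        ((he.abs.const_mul (D : ℝ)).add_const B).div_atTop
          (tendsto_pow_atTop_atTop_of_one_lt hθ)
      refine squeeze_zero_norm (fun n => ?_) hsmall
      have hθn : (0 : ℝ) < θ ^ n := pow_pos (by linarith) n
      rw [Real.norm_eq_abs, abs_div, abs_of_pos hθn]
      refine div_le_div_of_nonneg_right ?_ hθn.le
      have h1 : ((a n : ℤ) : ℝ) = (D : ℝ) * (k n + (φ (l n) : ℝ)) := by
        have h2 := congrArg (fun x : ℚ => (x : ℝ)) (hi (l n) (hlL n))
        simp only [ha]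
        push_cast at h2 ⊢
        linear_combination h2
      rw [h1, show (D : ℝ) * lam * θ ^ n - D * (k n + (φ (l n) : ℝ)) =
        D * (lam * θ ^ n - (k n + l n)) + D * (l n - (φ (l n) : ℝ)) by ring]
      refine (abs_add_le _ _).trans (add_le_add (le_of_eq ?_) (hB _ (hlL n)))
      rw [abs_mul, Nat.abs_cast]
    · filter_upwards [eventually_shiftOp_eq_zero hfin hlL he hG] with n hn
      have h1 : shiftOp (G.map (Int.castRingHom ℚ)) (fun j => (a j : ℚ)) n =
          (D : ℚ) * φ (shiftOp (G.map (Int.castRingHom ℝ)) (fun j => k j + l j) n) := by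
        rw [shiftOp_apply_of_lt (Nat.lt_succ_of_le natDegree_map_le) _ n,
          shiftOp_apply_of_lt (Nat.lt_succ_of_le natDegree_map_le) _ n, map_sum, Finset.mul_sum]
        refine Finset.sum_congr rfl fun j _ => ?_
        rw [coeff_map, coeff_map, eq_intCast, eq_intCast, ha', ← zsmul_eq_mul,
          ← zsmul_eq_mul, map_zsmul, zsmul_eq_mul, zsmul_eq_mul]
        ring
      rw [shiftOp_mul, ← monomial_zero_left, shiftOp_monomial, add_zero, h1, hn, map_zero,
        mul_zero, mul_zero]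
  -- the monic recurrence makes the nearest limit points periodic
  set M := minpoly ℤ θ with hMdef
  obtain ⟨N, hN⟩ := eventually_atTop.1
    (eventually_shiftOp_eq_zero hfin hlL he (minpoly.aeval ℤ θ))
  obtain ⟨u, v, huv, hwin⟩ := Set.Finite.exists_lt_map_eq_of_forall_mem
    (f := fun i => fun j : Fin M.natDegree => l (N + i + j))
    (t := Set.pi Set.univ fun _ => L) (fun i j _ => hlL _) (Set.Finite.pi fun _ => hfin)
  set p := v - u with hp
  have hperiod : ∀ i, N + u ≤ i →
      ∃ z : ℤ, ((k (i + p) : ℝ) + l (i + p)) - (k i + l i) = z := by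
    intro i
    induction i using Nat.strong_induction_on with
    | _ i ih =>
      intro hi
      rcases lt_or_ge i (N + u + M.natDegree) with hlt | hge
      · refine ⟨k (i + p) - k i, ?_⟩
        have h := congrFun hwin ⟨i - (N + u), by omega⟩
        simp only at h
        rw [show N + u + (i - (N + u)) = i by omega,
          show N + v + (i - (N + u)) = i + p by omega] at h
        rw [← h]
        push_cast
        ring
      · set n := i - M.natDegree with hn
        have hmon : (M.map (Int.castRingHom ℝ)).Monic := (minpoly.monic hint).map _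
        have hdeg : (M.map (Int.castRingHom ℝ)).natDegree = M.natDegree :=
          (minpoly.monic hint).natDegree_map _
        have h1 := hN n (by omega)
        have h2 := hN (n + p) (by omega)
        rw [shiftOp_apply, hdeg, Finset.sum_range_succ, coeff_map,
          (minpoly.monic hint).coeff_natDegree, map_one, one_mul] at h1 h2
        rw [show n + M.natDegree = i by omega] at h1
        rw [show n + p + M.natDegree = i + p by omega] at h2
        have hrel : ∀ j ∈ range M.natDegree,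
            ∃ z : ℤ, ((k (n + p + j) : ℝ) + l (n + p + j)) - (k (n + j) + l (n + j)) = z := by
          intro j hj
          rw [mem_range] at hj
          obtain ⟨z, hz⟩ := ih (n + j) (by omega) (by omega)
          exact ⟨z, by rw [show n + p + j = n + j + p by omega]; exact hz⟩
        choose z hz using hrel
        refine ⟨-∑ j ∈ (range M.natDegree).attach, M.coeff j * z j j.2, ?_⟩
        push_cast
        have h3 : ∑ j ∈ (range M.natDegree).attach, (M.coeff j : ℝ) * (z j j.2 : ℝ) =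
            ∑ j ∈ range M.natDegree, ((M.map (Int.castRingHom ℝ)).coeff j *
              ((k (n + p + j) : ℝ) + l (n + p + j)) -
              (M.map (Int.castRingHom ℝ)).coeff j * (k (n + j) + l (n + j))) := by
          rw [← Finset.sum_attach (range M.natDegree)]
          refine Finset.sum_congr rfl fun j _ => ?_
          rw [coeff_map, eq_intCast, ← mul_sub, hz j j.2]
        rw [h3, Finset.sum_sub_distrib]
        linear_combination h2 - h1
  have hθp : (1 : ℝ) < θ ^ p := one_lt_pow₀ hθ (by omega)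
  obtain ⟨hpis, hmem⟩ : IsPisot θ ∧ (θ ^ p - 1) * lam ∈ ℚ⟮θ⟯ := by
    refine isPisot_of_tendsto hθ halg (mul_ne_zero (sub_pos.2 hθp).ne' hlam) ?_
    have h1 := (he.comp (tendsto_atTop_mono (fun n => Nat.le_add_right n p) tendsto_id)).sub he
    rw [sub_zero, tendsto_zero_iff_abs_tendsto_zero] at h1
    rw [tendsto_zero_iff_abs_tendsto_zero]
    refine squeeze_zero' (Eventually.of_forall fun n => abs_nonneg _) ?_ h1
    filter_upwards [eventually_ge_atTop (N + u)] with n hn
    obtain ⟨z, hz⟩ := hperiod n hn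
    refine (round_le _ z).trans_eq ?_
    simp only [Function.comp_apply, ← hz, pow_add]
    congr 1
    ring
  refine ⟨hpis, ?_⟩
  have h1 : (θ ^ p - 1) ∈ ℚ⟮θ⟯ :=
    sub_mem (pow_mem (IntermediateField.mem_adjoin_simple_self ℚ θ) _) (one_mem _)
  simpa [← mul_assoc, inv_mul_cancel₀ (sub_pos.2 hθp).ne'] using mul_mem (inv_mem h1) hmem

/-- At a Pisot number `θ` and `λ ∈ ℚ(θ)`, a bounded denominator absorbs `λ θ ^ n` modulo one. -/
theorem exists_tendsto_of_isPisot (h : IsPisot θ) (hmem : lam ∈ ℚ⟮θ⟯) :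
    ∃ (D : ℤ) (m : ℕ → ℤ), D ≠ 0 ∧
      Tendsto (fun n => (D : ℝ) * (lam * θ ^ n) - m n) atTop (𝓝 0) := by
  classical
  obtain ⟨-, hint, hconj⟩ := h
  have hx : IsIntegral ℚ θ := hint.tower_top
  have : FiniteDimensional ℚ ℚ⟮θ⟯ := IntermediateField.adjoin.finiteDimensional hx
  set t : ℚ⟮θ⟯ := IntermediateField.AdjoinSimple.gen ℚ θ with ht
  set x : ℚ⟮θ⟯ := ⟨lam, hmem⟩
  set σ₀ : ℚ⟮θ⟯ →ₐ[ℚ] ℂ := (Complex.ofRealAm.restrictScalars ℚ).comp ℚ⟮θ⟯.val
  have hσ₀t : σ₀ t = (θ : ℂ) := rfl
  have hσ₀x : σ₀ x = (lam : ℂ) := rfl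
  obtain ⟨D, hD, hDx⟩ := ((IsFractionRing.isAlgebraic_iff ℤ ℚ ℚ⟮θ⟯).2
    (Algebra.IsAlgebraic.isAlgebraic x)).exists_integral_multiple
  have hti : ∀ n, IsIntegral ℤ ((D • x) * t ^ n) := fun n =>
    hDx.mul (((isIntegral_algebraMap_iff (algebraMap ℚ⟮θ⟯ ℝ).injective).1 hint).pow n)
  choose m hm using fun n => IsIntegrallyClosed.isIntegral_iff.1
    (Algebra.isIntegral_trace (L := ℚ) (F := ℚ⟮θ⟯) (hti n))
  refine ⟨D, m, hD, ?_⟩
  have hroot : aeval t (minpoly ℤ θ) = 0 := by
    refine (algebraMap ℚ⟮θ⟯ ℝ).injective ?_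
    rw [map_zero, ← aeval_algebraMap_apply]
    exact minpoly.aeval ℤ θ
  have hsum : Tendsto (fun n => ∑ σ ∈ (univ : Finset (ℚ⟮θ⟯ →ₐ[ℚ] ℂ)).erase σ₀,
      σ ((D • x) * t ^ n)) atTop (𝓝 0) := by
    rw [← Finset.sum_const_zero (s := (univ : Finset (ℚ⟮θ⟯ →ₐ[ℚ] ℂ)).erase σ₀)]
    refine tendsto_finsetSum _ fun σ hσ => ?_
    have hlt : ‖σ t‖ < 1 := by
      refine hconj _ ?_ fun he => (Finset.mem_erase.1 hσ).1 ?_
      · rw [show σ t = (σ.restrictScalars ℤ) t from rfl, aeval_algHom_apply, hroot, map_zero]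
      · refine (IntermediateField.adjoin.powerBasis hx).algHom_ext ?_
        rw [IntermediateField.adjoin.powerBasis_gen, ← ht]
        exact he.trans hσ₀t.symm
    simpa [map_mul, map_pow] using
      (tendsto_pow_atTop_nhds_zero_of_norm_lt_one hlt).const_mul (σ (D • x))
  rw [tendsto_zero_iff_norm_tendsto_zero] at hsum ⊢
  refine hsum.congr fun n => ?_
  have htr := trace_eq_sum_embeddings (K := ℚ) (L := ℚ⟮θ⟯) ℂ (x := (D • x) * t ^ n)
  rw [← Finset.add_sum_erase _ _ (Finset.mem_univ σ₀), ← hm, algebraMap_int_eq, eq_intCast,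
    map_intCast, map_mul σ₀, map_pow σ₀, map_zsmul σ₀, hσ₀t, hσ₀x, zsmul_eq_mul] at htr
  rw [← Complex.norm_real ((D : ℝ) * (lam * θ ^ n) - m n), ← norm_neg]
  congr 1
  push_cast
  linear_combination htr

/-- The converse: finitely many limit points at a Pisot number. -/
theorem finite_of_isPisot (h : IsPisot θ) (hmem : lam ∈ ℚ⟮θ⟯) :
    {z : ℝ | MapClusterPt z atTop fun n : ℕ => Int.fract (lam * θ ^ n)}.Finite := by
  obtain ⟨D, m, hD, hlim⟩ := exists_tendsto_of_isPisot h hmem
  have hD' : (D : ℝ) ≠ 0 := Int.cast_ne_zero.2 hD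
  refine ((Set.finite_Icc (-|D|) |D|).image fun i : ℤ => (i : ℝ) / D).subset fun z hz => ?_
  have hz01 : z ∈ Set.Icc (0 : ℝ) 1 := by
    by_contra hout
    obtain ⟨n, hn⟩ := (hz.frequently
      ((isClosed_Icc (a := (0 : ℝ)) (b := 1)).isOpen_compl.mem_nhds hout)).exists
    exact hn ⟨Int.fract_nonneg _, (Int.fract_lt_one _).le⟩
  by_contra hne
  have hpos : 0 < |(D : ℝ) * z - round ((D : ℝ) * z)| := by
    refine abs_pos.2 (sub_ne_zero.2 fun heq => hne ⟨round ((D : ℝ) * z), ?_, ?_⟩)
    · have h1 : |((round ((D : ℝ) * z) : ℤ) : ℝ)| ≤ |(D : ℝ)| := by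
        rw [← heq, abs_mul, abs_of_nonneg hz01.1]
        exact mul_le_of_le_one_right (abs_nonneg _) hz01.2
      exact Set.mem_Icc.2 (abs_le.1 (by exact_mod_cast h1))
    · simp only [← heq]
      field_simp
  set δ := |(D : ℝ) * z - round ((D : ℝ) * z)|
  have h1 : ∀ᶠ n in atTop, |(D : ℝ) * (lam * θ ^ n) - m n| < δ / 2 := by
    simpa [Real.dist_eq] using Metric.tendsto_nhds.1 hlim _ (half_pos hpos)
  have h2 : ∃ᶠ n in atTop, |(D : ℝ) * Int.fract (lam * θ ^ n) - D * z| < δ / 2 := by
    refine (hz.frequently (Metric.ball_mem_nhds z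
      (ε := δ / 2 / |(D : ℝ)|) (by positivity))).mono fun n hn => ?_
    rw [Real.dist_eq, lt_div_iff₀ (abs_pos.2 hD')] at hn
    rwa [← mul_sub, abs_mul, mul_comm]
  obtain ⟨n, ha, hb⟩ := (h2.and_eventually h1).exists
  have h3 := round_le ((D : ℝ) * z) (m n - D * ⌊lam * θ ^ n⌋)
  rw [Int.fract] at ha
  push_cast at h3
  rw [abs_lt] at ha hb
  have h4 : |(D : ℝ) * z - (m n - D * ⌊lam * θ ^ n⌋)| < δ := by
    rw [abs_lt]
    constructor <;> nlinarith
  exact absurd h3 (not_le.2 h4)

/-- **Pisot's theorem.** -/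
theorem finite_limitPoints_iff (hθ : 1 < θ) (halg : IsAlgebraic ℚ θ) (hlam : lam ≠ 0) :
    {z : ℝ | MapClusterPt z atTop fun n : ℕ => Int.fract (lam * θ ^ n)}.Finite ↔
      IsPisot θ ∧ lam ∈ ℚ⟮θ⟯ :=
  ⟨isPisot_of_finite hθ halg hlam, fun h => finite_of_isPisot h.1 h.2⟩

end FA.PisotLimitPoints

end
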